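import Fermat.Agent.LT.T5.H40.HS0Core
import Fermat.Agent.LT.T1.H919.K0Compact
import Fermat.Agent.LT.T5.H904.Box904

/-!
# Row LT, tower T5, sub-leaf T5.02e1 `H40.HeightDistC` (helper904)

OFF-MAIN.  `heightDist_of904 : T1.AdNormC K → T5.H40.HeightDistC K` and
`heightDist_of_T1Out904 : T1.T1Out K → T5.H40.HeightDistC K`.

Proof.  `g = b k`, `g ω = b₂ k₂` (the two decompositions of `T1.HasHeight`), so
`b' = b⁻¹ b₂ = k ω k₂⁻¹` is upper triangular and lies in the compact set `M = K⁰ C K⁰`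
(`K⁰` is compact: helper919 `isCompact_stdCompact919`).  The entries `b'₁₁` and `(b'⁻¹)₀₀ = b'₀₀⁻¹`
are ideles which lie in compact sets of adeles, so their modules are bounded above (`boxCB904`,
after helper472): `H(b') = ‖b'₀₀‖ / ‖b'₁₁‖ ≥ 1 / (B₁ B₂)`, and `t' = H(b b') = t · H(b')`.
Neither the uniqueness of the height nor the Iwasawa decomposition is used.
-/

set_option autoImplicit false

open IsDedekindDomain NumberField MeasureTheory
open scoped MatrixGroups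

noncomputable section

namespace Fermat.Agent.LT.T5.H904

open Fermat.Agent.LT.H556.A0 Fermat.Agent.LT Fermat.Agent.LT.T1.H793 Fermat.Agent.LT.T1.H919

variable (K : Type) [Field K] [NumberField K]

/-- **T5.02e1 `HeightDistC`** from the module (`T1.AdNormC`). -/
theorem heightDist_of904 (hN : T1.AdNormC K) : T5.H40.HeightDistC K := by
  intro C hC
  set K0 : Set (G K) := {k : G K | T1.IsStdCompact K k} with hK0def
  have hK0 : IsCompact K0 := isCompact_stdCompact919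
  set M : Set (G K) :=
    (fun q : (G K × G K) × G K => q.1.1 * q.1.2 * q.2⁻¹) '' ((K0 ×ˢ C) ×ˢ K0) with hMdef
  have hM : IsCompact M :=
    ((hK0.prod hC).prod hK0).image (by fun_prop)
  set Q₁ : Set (Adl K) :=
    (fun g : G K => (g : Matrix (Fin 2) (Fin 2) (Adl K)) 1 1) '' M with hQ₁def
  set Q₂ : Set (Adl K) :=
    (fun g : G K => ((g⁻¹ : G K) : Matrix (Fin 2) (Fin 2) (Adl K)) 0 0) '' M with hQ₂def
  have hQ₁ : IsCompact Q₁ := hM.image (continuous_entry919 1 1)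
  have hQ₂ : IsCompact Q₂ := hM.image ((continuous_entry919 0 0).comp continuous_inv)
  obtain ⟨B₁, hB₁⟩ := boxCB904 K Q₁ hQ₁
  obtain ⟨B₂, hB₂⟩ := boxCB904 K Q₂ hQ₂
  refine ⟨max B₁ 1 * max B₂ 1, by positivity, ?_⟩
  rintro g ω t t' hω ⟨b, k, hb, hk, hg, ht⟩ ⟨b₂, k₂, hb₂, hk₂, hg₂, ht'⟩
  set b' : G K := b⁻¹ * b₂ with hb'def
  have hb'eq : b' = k * ω * k₂⁻¹ := by
    rw [hb'def, eq_mul_inv_iff_mul_eq, mul_assoc, ← hg₂, hg]
    group
  have hb'M : b' ∈ M := by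
    rw [hb'eq]
    exact ⟨((k, ω), k₂), ⟨⟨hk, hω⟩, hk₂⟩, rfl⟩
  have hb'up : T1.IsUpper K b' := isUpper_mul793 (isUpper_inv793 hb) hb₂
  have hb₂eq : b₂ = b * b' := by rw [hb'def, mul_inv_cancel_left]
  -- the diagonal entries
  obtain ⟨hu00, hu11⟩ := isUnit_diag793 hb
  obtain ⟨hu'00, hu'11⟩ := isUnit_diag793 hb'up
  have hinvup : T1.IsUpper K b'⁻¹ := isUpper_inv793 hb'up
  obtain ⟨hi00, -⟩ := isUnit_diag793 hinvup
  have e00 : (b₂ : Matrix (Fin 2) (Fin 2) (Adl K)) 0 0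
      = (b : Matrix (Fin 2) (Fin 2) (Adl K)) 0 0 * (b' : Matrix (Fin 2) (Fin 2) (Adl K)) 0 0 := by
    rw [hb₂eq]; exact mul_apply_zero_zero793 hb'up
  have e11 : (b₂ : Matrix (Fin 2) (Fin 2) (Adl K)) 1 1
      = (b : Matrix (Fin 2) (Fin 2) (Adl K)) 1 1 * (b' : Matrix (Fin 2) (Fin 2) (Adl K)) 1 1 := by
    rw [hb₂eq]; exact mul_apply_one_one793 hb
  have einv : ((b'⁻¹ : G K) : Matrix (Fin 2) (Fin 2) (Adl K)) 0 0
      * (b' : Matrix (Fin 2) (Fin 2) (Adl K)) 0 0 = 1 := by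
    have h := mul_apply_zero_zero793 (b := b'⁻¹) hb'up
    rw [inv_mul_cancel] at h
    rw [← h]
    simp
  -- the modules
  have p00 := adNorm_pos793 hN hu00
  have p11 := adNorm_pos793 hN hu11
  have p'00 := adNorm_pos793 hN hu'00
  have p'11 := adNorm_pos793 hN hu'11
  have pi00 := adNorm_pos793 hN hi00
  have hone : T1.adNorm K (1 : Adl K) = 1 := by
    have := hN.2.1 1 1
    simp only [mul_one, Units.val_one] at this
    have hp : 0 < T1.adNorm K (1 : Adl K) := by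
      have := hN.1 1
      simpa using this
    nlinarith
  have hprod : T1.adNorm K (((b'⁻¹ : G K) : Matrix (Fin 2) (Fin 2) (Adl K)) 0 0)
      * T1.adNorm K ((b' : Matrix (Fin 2) (Fin 2) (Adl K)) 0 0) = 1 := by
    rw [← adNorm_mul793 hN hi00 hu'00, einv, hone]
  have hle₁ : T1.adNorm K ((b' : Matrix (Fin 2) (Fin 2) (Adl K)) 1 1) ≤ max B₁ 1 := by
    obtain ⟨u, hu⟩ := hu'11
    rw [← hu]
    exact le_trans (hB₁ u (by rw [hu]; exact ⟨b', hb'M, rfl⟩)) (le_max_left _ _)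
  have hle₂ : T1.adNorm K (((b'⁻¹ : G K) : Matrix (Fin 2) (Fin 2) (Adl K)) 0 0) ≤ max B₂ 1 := by
    obtain ⟨u, hu⟩ := hi00
    rw [← hu]
    exact le_trans (hB₂ u (by rw [hu]; exact ⟨b', hb'M, rfl⟩)) (le_max_left _ _)
  -- conclusion
  rw [ht, ht', e00, e11, adNorm_mul793 hN hu00 hu'00, adNorm_mul793 hN hu11 hu'11]
  set x := T1.adNorm K ((b : Matrix (Fin 2) (Fin 2) (Adl K)) 0 0) with hx
  set y := T1.adNorm K ((b : Matrix (Fin 2) (Fin 2) (Adl K)) 1 1) with hy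
  set x' := T1.adNorm K ((b' : Matrix (Fin 2) (Fin 2) (Adl K)) 0 0) with hx'
  set y' := T1.adNorm K ((b' : Matrix (Fin 2) (Fin 2) (Adl K)) 1 1) with hy'
  set z := T1.adNorm K (((b'⁻¹ : G K) : Matrix (Fin 2) (Fin 2) (Adl K)) 0 0) with hz
  have hB₁' : 0 < max B₁ 1 := lt_of_lt_of_le one_pos (le_max_right _ _)
  have hB₂' : 0 < max B₂ 1 := lt_of_lt_of_le one_pos (le_max_right _ _)
  -- `x / y ≤ B₁' B₂' (x x') / (y y')`  ⟸  `y' ≤ B₁'`, `1 = z x'`, `z ≤ B₂'`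
  have h1 : y' ≤ max B₁ 1 * max B₂ 1 * x' := by
    calc y' ≤ max B₁ 1 := hle₁
      _ = max B₁ 1 * (z * x') := by rw [hprod, mul_one]
      _ ≤ max B₁ 1 * (max B₂ 1 * x') :=
          mul_le_mul_of_nonneg_left (mul_le_mul_of_nonneg_right hle₂ p'00.le) hB₁'.le
      _ = max B₁ 1 * max B₂ 1 * x' := by ring
  rw [div_le_iff₀ p11]
  have h2 : max B₁ 1 * max B₂ 1 * (x * x' / (y * y')) * y
      = x * (max B₁ 1 * max B₂ 1 * x') / y' := by
    field_simp
  rw [h2, le_div_iff₀ p'11]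
  exact mul_le_mul_of_nonneg_left h1 p00.le

/-- **T5.02e1 `HeightDistC`** from the output of tower T1. -/
theorem heightDist_of_T1Out904 (hT1 : T1.T1Out K) : T5.H40.HeightDistC K :=
  heightDist_of904 K hT1.adNorm

end Fermat.Agent.LT.T5.H904

end
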